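import Fermat.Agent.Mazur.Descent.Structure.Data
import Fermat.Agent.Mazur.Descent.Structure.Good
import Fermat.Agent.GalRep.Construct.TateData

/-!
# The finite Galois modules of the component

The Galois action on each level of the component; its constituents are trivial or cyclotomic.
-/

set_option autoImplicit false

noncomputable section

namespace FermatAgent.Mazur.Descent

open ModularCurve FermatAgent.GalRep FermatAgent.ModCurveTorsion

local notation "Qb" => AlgebraicClosure ℚ
local notation "GQ" => AlgebraicClosure ℚ ≃ₐ[ℚ] AlgebraicClosure ℚ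

theorem galois_map_zero {N : ℕ} (σ : GQ) : σ • (0 : JZero N) = 0 :=
  (DistribSMul.toAddMonoidHom (JZero N) σ).map_zero

variable {p l : ℕ} [NeZero p]

theorem smul_mem_eisPart {e : HeckeAlg} {r : ℕ} (σ : GQ) {x : JZero p}
    (hx : x ∈ eisPart p l e r) : σ • x ∈ eisPart p l e r :=
  ⟨galois_torsion σ hx.1, by rw [← galois_smul_hact, hx.2]⟩

instance eisPartAction (e : HeckeAlg) (r : ℕ) : DistribMulAction GQ (eisPart p l e r) where
  smul σ x := ⟨σ • (x : JZero p), smul_mem_eisPart σ x.2⟩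
  one_smul x := Subtype.ext (one_smul GQ (x : JZero p))
  mul_smul σ τ x := Subtype.ext (mul_smul σ τ (x : JZero p))
  smul_zero σ := Subtype.ext (galois_map_zero σ)
  smul_add σ x y := Subtype.ext (smul_add σ (x : JZero p) y)

theorem finite_eisPart [Fact p.Prime] [hl : Fact l.Prime] (e : HeckeAlg) (r : ℕ) :
    Finite (eisPart p l e r) := by
  refine Set.Finite.to_subtype (((torsionModel p).torsion_finite (pow_pos hl.out.pos r)).subset
    fun x hx => ?_)
  show ((l ^ r : ℕ) : ℤ) • x = 0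
  rw [natCast_zsmul]
  exact hx.1

theorem nsmul_eisPart {e : HeckeAlg} {r : ℕ} (x : eisPart p l e r) : l ^ r • x = 0 :=
  Subtype.ext (by rw [AddSubgroupClass.coe_nsmul, x.2.1]; rfl)

/-- A Hecke operator on a level of the component. -/
def eisRestrict {e : HeckeAlg} {r : ℕ} (f : HeckeAlg) : AddMonoid.End (eisPart p l e r) :=
  AddMonoidHom.mk' (fun x => ⟨hact p f (x : JZero p), by
      refine ⟨by rw [← map_nsmul, x.2.1, map_zero], ?_⟩
      rw [← Module.End.mul_apply, ← map_mul, mul_comm, map_mul, Module.End.mul_apply, x.2.2]⟩)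
    fun x y => Subtype.ext (map_add _ _ _)

theorem coe_eisRestrict_pow {e : HeckeAlg} {r : ℕ} (f : HeckeAlg) (n : ℕ) (x : eisPart p l e r) :
    (((eisRestrict f ^ n) x : eisPart p l e r) : JZero p) = (hact p f ^ n) (x : JZero p) := by
  induction n generalizing x with
  | zero => rfl
  | succ n ih =>
    rw [pow_succ, pow_succ, Module.End.mul_apply]
    exact ih (eisRestrict f x)

/-- `χ_r ≡ χ` modulo `l`. -/
theorem dvd_cycNat_sub [hl : Fact l.Prime] {r : ℕ} (hr : r ≠ 0) (σ : GQ) :
    (l : ℤ) ∣ ((cycloChar l σ : ZMod l).val : ℤ) - cycNat l r σ := by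
  have h2 : (l : ℤ_[l]) ∣ cycChar l σ - ((cycloChar l σ : ZMod l).val : ℕ) := by
    rw [← pow_one (l : ℤ_[l])]
    refine pow_dvd_cycChar_sub l fun ζ hζ => ?_
    rw [pow_one] at hζ
    by_cases h1 : ζ = 1
    · subst h1
      rw [map_one, one_pow]
    · refine cycloChar_spec (IsPrimitiveRoot.iff_def _ _ |>.2 ⟨hζ, fun k hk => ?_⟩) σ
      rcases (Nat.dvd_prime hl.out).1 (orderOf_dvd_of_pow_eq_one hζ) with h | h
      · exact absurd (orderOf_eq_one_iff.1 h) h1
      · exact h ▸ orderOf_dvd_of_pow_eq_one hk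
  have h1 : (l : ℤ_[l]) ∣ cycChar l σ - (cycNat l r σ : ℕ) := by
    refine (dvd_pow_self (l : ℤ_[l]) hr).trans ?_
    rw [← Ideal.mem_span_singleton, ← PadicInt.ker_toZModPow, RingHom.mem_ker, map_sub,
      map_natCast, cycNat, ZMod.natCast_zmod_val, sub_self]
  have h3 := dvd_sub h1 h2
  rw [sub_sub_sub_cancel_left, ← pow_one (l : ℤ_[l])] at h3
  have h4 := (PadicInt.pow_p_dvd_int_iff 1 (((cycloChar l σ : ZMod l).val : ℤ) - cycNat l r σ)).1
    (by push_cast; exact h3)
  simpa using h4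

/-- The constituents of each level are trivial or cyclotomic. -/
theorem isEisLike_eisPart [Fact p.Prime] [hl : Fact l.Prime] {A Ap : ValuationSubring Qb}
    (D : LocalData p l A Ap) (r : ℕ) :
    IsEisLike (cycloChar l) (eisPart p l (D.e r) r) := by
  refine ⟨fun b => ⟨r, nsmul_eisPart b⟩, fun σ b => ?_⟩
  rcases Nat.eq_zero_or_pos r with rfl | hr
  · refine ⟨0, ?_⟩
    have := nsmul_eisPart b
    rwa [pow_zero, one_nsmul] at this
  obtain ⟨a, ⟨n, hn⟩, hrel⟩ := D.quadratic r σ
  set v := (cycloChar l σ : ZMod l).val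
  set c : ℤ := (v : ℤ) - cycNat l r σ
  let EE := AddMonoid.End (eisPart p l (D.e r) r)
  let T : EE := eisRestrict (a - ((1 + v : ℕ) : HeckeAlg))
  let S : EE := actEnd (eisPart p l (D.e r) r) σ
  have hNn : T ^ n = 0 := DFunLike.ext _ _ fun x => Subtype.ext (by
    rw [coe_eisRestrict_pow, map_sub, map_natCast]
    exact hn x x.2)
  have hNS : Commute T S := DFunLike.ext _ _ fun (x : eisPart p l (D.e r) r) => Subtype.ext
    (galois_smul_hact (a - ((1 + v : ℕ) : HeckeAlg)) σ (x : JZero p)).symm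
  have hcr : (c : EE) ^ r = 0 := by
    obtain ⟨d, hd⟩ := dvd_cycNat_sub (l := l) hr.ne' σ
    refine DFunLike.ext _ _ fun x => ?_
    have h1 : (c : EE) ^ r = ((c ^ r : ℤ) : EE) :=
      (map_pow (Int.castRingHom EE) c r).symm
    rw [h1]
    refine (AddMonoid.End.intCast_apply (c ^ r) x).trans ?_
    rw [show c = (l : ℤ) * d from hd, mul_pow, mul_comm, mul_smul, ← Nat.cast_pow, natCast_zsmul,
      nsmul_eisPart, smul_zero]
    rfl
  have heq : eisOp (cycloChar l) (eisPart p l (D.e r) r) σ = T * S + (c : EE) := by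
    refine DFunLike.ext _ _ fun x => ?_
    rw [eisOp_apply]
    refine Subtype.ext ?_
    show σ • (σ • (x : JZero p) - v • (x : JZero p)) - (σ • (x : JZero p) - v • (x : JZero p)) =
      hact p (a - ((1 + v : ℕ) : HeckeAlg)) (σ • (x : JZero p)) +
        ((c : EE) x : eisPart p l (D.e r) r)
    rw [AddMonoid.End.intCast_apply, AddSubgroupClass.coe_zsmul, map_sub, map_natCast,
      LinearMap.sub_apply, Module.End.natCast_apply, sub_zsmul, natCast_zsmul, natCast_zsmul,
      smul_sub, galois_nsmul, add_nsmul, one_nsmul]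
    have h := hrel x x.2
    rw [sub_add_eq_add_sub, sub_eq_zero] at h
    rw [← h]
    abel
  have hN : IsNilpotent T := ⟨n, hNn⟩
  have hc' : IsNilpotent (c : EE) := ⟨r, hcr⟩
  have hcc : Commute (T * S) (c : EE) :=
    DFunLike.ext _ _ fun (x : eisPart p l (D.e r) r) => by
      show (T * S) ((c : EE) x) = (c : EE) ((T * S) x)
      rw [AddMonoid.End.intCast_apply, AddMonoid.End.intCast_apply]
      exact map_zsmul (T * S) c x
  have hnil : IsNilpotent (T * S + (c : EE)) :=
    Commute.isNilpotent_add hcc (Commute.isNilpotent_mul_right hNS hN) hc'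
  obtain ⟨m, hm⟩ := hnil
  exact ⟨m, by rw [heq, hm]; rfl⟩

/-- The fixed classes are boundedly many. -/
theorem exists_card_fixed_le [Fact p.Prime] [hl : Fact l.Prime] {A Ap : ValuationSubring Qb}
    (D : LocalData p l A Ap) :
    ∃ c₀ : ℕ, 0 < c₀ ∧ ∀ (r : ℕ) (H : AddSubgroup (eisPart p l (D.e r) r)),
      (∀ x ∈ H, ∀ σ : GQ, σ • x = x) → Nat.card H ≤ c₀ := by
  obtain ⟨D₀, hD₀, hfix⟩ := D.fixed_bound
  set S := {R : JZero p | (D₀ : ℤ) • R = 0}
  have hS : S.Finite := (torsionModel p).torsion_finite (Nat.pos_of_ne_zero hD₀)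
  have := hS.to_subtype
  refine ⟨Nat.card S + 1, Nat.succ_pos _, fun r H hH => Nat.le_succ_of_le ?_⟩
  refine Nat.card_le_card_of_injective (fun x : H => (⟨((x : eisPart p l (D.e r) r) : JZero p), ?_⟩ : S))
    fun x y h => Subtype.ext (Subtype.ext (congrArg (fun z : S => (z : JZero p)) h))
  show (D₀ : ℤ) • _ = 0
  rw [natCast_zsmul]
  exact hfix r _ x.1.2 fun σ => congrArg Subtype.val (hH x.1 x.2 σ)

omit [NeZero p] in
/-- A class killed by `l ^ r` is fixed by inertia at the primes prime to `p l`. -/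
theorem smul_eq_of_others [Fact p.Prime] [hl : Fact l.Prime] {A Ap : ValuationSubring Qb} {r : ℕ}
    {σ : GQ} (hσ : σ ∈ (galFrame Ap A p l).others) {y : JZero p}
    (hy : l ^ r • (σ • y - y) = 0) : σ • y = y := by
  obtain ⟨q, hq, hqp, hql, B, hB, hσB⟩ := hσ
  refine eq_of_inertia_other hq (fun h => hqp ((Nat.prime_dvd_prime_iff_eq hq Fact.out).1 h)) hB hσB
    (fun h => hql ((Nat.prime_dvd_prime_iff_eq hq hl.out).1 (hq.dvd_of_dvd_pow h))) hy

/-- An open level fixing finitely many classes. -/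
theorem exists_level_fixing {ι : Type*} [Finite ι] (f : ι → JZero p) :
    ∃ L : IntermediateField ℚ Qb, FiniteDimensional ℚ L ∧
      ∀ σ ∈ L.fixingSubgroup, ∀ i, σ • f i = f i := by
  choose E hE hfix using fun i => exists_finiteDimensional_fixing p (f i)
  have : ∀ i, FiniteDimensional ℚ (E i) := hE
  refine ⟨⨆ i, E i, IntermediateField.finiteDimensional_iSup_of_finite, fun σ hσ i => ?_⟩
  refine hfix i σ ((IntermediateField.mem_fixingSubgroup_iff _ _).mpr fun a ha => ?_)
  exact (IntermediateField.mem_fixingSubgroup_iff _ _).mp hσ a (le_iSup E i ha)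

end FermatAgent.Mazur.Descent

end
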