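import Fermat.Agent.Mazur.Descent.Structure.Data
import Fermat.Agent.Mazur.Descent.Structure.Good
import Fermat.Agent.GalRep.Construct.TateData
import Fermat.Agent.MW.MulDiv.JZero
import Fermat.Agent.MW.JZero
import Mathlib.RingTheory.Finiteness.Nakayama

/-!
# The descent from a bound on the Kummer classes

If the rational points have boundedly many classes modulo `l ^ r` in the component, some element
congruent to `1` modulo the Eisenstein prime sends every rational point to a torsion point.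
-/

set_option autoImplicit false

noncomputable section

namespace FermatAgent.Mazur.Descent

open ModularCurve FermatAgent.GalRep FermatAgent.ModCurveTorsion

local notation "GQ" => AlgebraicClosure ℚ ≃ₐ[ℚ] AlgebraicClosure ℚ

/-- The classes of the rational points in the component modulo `l ^ r` are boundedly many. -/
def KummerBound (p l : ℕ) [NeZero p] (e : ℕ → HeckeAlg) : Prop :=
  ∃ C : ℕ, ∀ (r k : ℕ) (x : Fin k → JZero p), (∀ i, ∀ σ : GQ, σ • x i = x i) →
    (∀ i j, i ≠ j → ∀ y : JZero p, (∀ σ : GQ, σ • y = y) →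
      hact p (e r) (x i - x j) ≠ l ^ r • y) → k ≤ C

variable {p l : ℕ} [NeZero p]

omit [NeZero p] in
/-- An element with value zero at the Eisenstein eigensystem lies in the Eisenstein prime. -/
theorem mem_sup_of_eisEval_eq_zero [Fact p.Prime] [Fact l.Prime] {f : HeckeAlg}
    (hf : eisEval p l f = 0) : f ∈ eisensteinIdeal p ⊔ Ideal.span {(l : HeckeAlg)} := by
  set c : ℤ := MvPolynomial.aeval (eisensteinSystem p) f
  have hsys : eisEval p l = (Int.castRingHom (ZMod l)).comp
      (MvPolynomial.aeval (R := ℤ) (eisensteinSystem p)).toRingHom := by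
    refine MvPolynomial.ringHom_ext (fun a => ?_) fun q => ?_
    · rw [eisEval, MvPolynomial.eval₂Hom_C, RingHom.comp_apply]
      simp
    · rw [eisEval, MvPolynomial.eval₂Hom_X', RingHom.comp_apply]
      show _ = Int.castRingHom (ZMod l) (MvPolynomial.aeval (eisensteinSystem p) (MvPolynomial.X q))
      rw [MvPolynomial.aeval_X]
      by_cases h : (q : ℕ) = p
      · rw [if_pos h, eisensteinSystem_of_dvd (h ▸ dvd_rfl), map_one]
      · rw [if_neg h, eisensteinSystem_of_not_dvd fun hd =>
          h ((Nat.prime_dvd_prime_iff_eq q.2 Fact.out).1 hd)]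
        simp
  have hc : (c : ZMod l) = 0 := by
    rw [← hf, hsys]
    rfl
  rw [ZMod.intCast_zmod_eq_zero_iff_dvd] at hc
  obtain ⟨d, hd⟩ := hc
  have h1 : f - (c : HeckeAlg) ∈ eisensteinIdeal p := by
    rw [eisensteinIdeal, mem_eigenIdeal_iff, map_sub, map_intCast, Int.cast_id, sub_self]
  have h2 : (c : HeckeAlg) ∈ Ideal.span {(l : HeckeAlg)} := by
    rw [hd, Int.cast_mul, Int.cast_natCast]
    exact Ideal.mul_mem_right _ _ (Ideal.mem_span_singleton_self _)
  have h3 := add_mem (Ideal.mem_sup_left h1 : f - (c : HeckeAlg) ∈ eisensteinIdeal p ⊔ Ideal.span {(l : HeckeAlg)})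
    (Ideal.mem_sup_right h2)
  rwa [sub_add_cancel] at h3

/-- An operator killing the `l`-torsion is divisible by `l` on rational points. -/
theorem exists_fixed_nsmul_eq [Fact p.Prime] {t : HeckeAlg} {n : ℕ} (hn : 0 < n)
    (ht : ∀ z : JZero p, n • z = 0 → hact p t z = 0) {x : JZero p} (hx : ∀ σ : GQ, σ • x = x) :
    ∃ y : JZero p, (∀ σ : GQ, σ • y = y) ∧ n • y = hact p t x := by
  obtain ⟨y, hy⟩ := MW.exists_nsmul_eq_jZero (torsionModel p) hn x
  refine ⟨hact p t y, fun σ => ?_, by rw [← map_nsmul, hy]⟩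
  rw [galois_smul_hact, ← sub_eq_zero, ← map_sub]
  refine ht _ ?_
  rw [nsmul_sub, ← galois_nsmul, hy, hx, sub_self]

/-- **The descent.** -/
theorem exists_hecke_smul_torsion_of_kummerBound [Fact p.Prime] [hl : Fact l.Prime] {e : ℕ → HeckeAlg}
    (heval : ∀ r, eisEval p l (e r) = 1)
    (hsucc : ∀ (r : ℕ) (x : JZero p), l ^ r • x = 0 → hact p (e (r + 1)) x = hact p (e r) x)
    (hB : KummerBound p l e) :
    letI := heckeModuleBar p
    ∃ τ : HeckeAlg, τ - 1 ∈ eisensteinIdeal p ⊔ Ideal.span {(l : HeckeAlg)} ∧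
      ∀ x : JZero p, (∀ σ : GQ, σ • x = x) → ∃ n : ℕ, n ≠ 0 ∧ n • (τ • x) = 0 := by
  classical
  obtain ⟨C, hC⟩ := hB
  let := heckeModuleBar p
  have hl0 : 0 < l := hl.out.pos
  -- the projectors agree modulo `l` on rational points
  have hagree : ∀ r, 1 ≤ r → ∀ x : JZero p, (∀ σ : GQ, σ • x = x) →
      ∃ y : JZero p, (∀ σ : GQ, σ • y = y) ∧ hact p (e r) x = hact p (e 1) x + l • y := by
    intro r hr x hx
    induction r, hr using Nat.le_induction with
    | base => exact ⟨0, fun σ => (DistribSMul.toAddMonoidHom (JZero p) σ).map_zero, by rw [nsmul_zero, add_zero]⟩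
    | succ r hr ih =>
      obtain ⟨y, hy, hyx⟩ := ih
      obtain ⟨z, hz, hzx⟩ := exists_fixed_nsmul_eq (t := e (r + 1) - e r) hl0 (fun z hz => by
        rw [map_sub, LinearMap.sub_apply, sub_eq_zero]
        refine hsucc r z ?_
        obtain ⟨k, rfl⟩ := Nat.exists_eq_add_of_le hr
        rw [add_comm, pow_succ, mul_nsmul', hz, nsmul_zero]) hx
      refine ⟨y + z, fun σ => by rw [smul_add, hy, hz], ?_⟩
      rw [nsmul_add, hzx, ← add_assoc, ← hyx, map_sub, LinearMap.sub_apply, add_sub_cancel]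
  -- the first projector vanishes modulo `l` and torsion
  have hdiv : ∀ x : JZero p, (∀ σ : GQ, σ • x = x) →
      ∃ y : JZero p, (∀ σ : GQ, σ • y = y) ∧ ∃ N : ℕ, N ≠ 0 ∧ N • (hact p (e 1) x - l • y) = 0 := by
    intro x hx
    set r := C + 1
    obtain ⟨i, j, hij, y, hy, hxy⟩ : ∃ i j : Fin (C + 1), (j : ℕ) < i ∧ ∃ y : JZero p,
        (∀ σ : GQ, σ • y = y) ∧ ((i : ℕ) - j) • hact p (e r) x = l ^ r • y := by
      by_contra hcon
      push Not at hcon
      refine absurd (hC r (C + 1) (fun i => (i : ℕ) • x) (fun i σ => by rw [galois_nsmul, hx])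
        fun i j hne y hy he => ?_) (by omega)
      rcases lt_or_gt_of_ne (fun h => hne (Fin.ext h) : (i : ℕ) ≠ j) with h | h
      · refine hcon j i h (-y) (fun σ => by rw [smul_neg, hy]) ?_
        rw [neg_nsmul, ← he, map_sub, map_nsmul, map_nsmul, neg_sub,
          sub_nsmul _ h.le, sub_eq_add_neg]
      · refine hcon i j h y hy ?_
        rw [← he, map_sub, map_nsmul, map_nsmul, sub_nsmul _ h.le, sub_eq_add_neg]
    set n := (i : ℕ) - j
    have hn0 : n ≠ 0 := by omega
    obtain ⟨a, n', hn', hfac⟩ := Nat.exists_eq_pow_mul_and_not_dvd hn0 l hl.out.one_lt.ne'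
    have hnr : n < r := by have := i.isLt; omega
    have har : a < r := by
      refine lt_of_le_of_lt (Nat.le_of_lt ?_) hnr
      refine lt_of_lt_of_le (Nat.lt_pow_self hl.out.one_lt) ?_
      rw [hfac]
      exact Nat.le_mul_of_pos_right _ (Nat.pos_of_ne_zero fun h => by simp [h] at hn')
    obtain ⟨b, hb⟩ := Nat.exists_eq_add_of_le har
    have hcop : IsCoprime (n' : ℤ) (l : ℤ) :=
      Nat.isCoprime_iff_coprime.2 ((hl.out.coprime_iff_not_dvd.2 hn').symm)
    obtain ⟨u, v, huv⟩ := hcop
    set w := hact p (e r) x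
    have hw : l ^ a • (n' • w - l • (l ^ b • y)) = 0 := by
      rw [nsmul_sub, ← mul_nsmul', ← mul_nsmul', ← mul_nsmul', ← hfac, hxy, hb]
      exact sub_eq_zero.2 (congrArg (· • y) (by rw [Nat.succ_eq_add_one]; ring))
    obtain ⟨z, hz, hzw⟩ := hagree r (by omega) x hx
    refine ⟨u • (l ^ b • y) + v • w - z, fun σ => ?_, l ^ a, pow_ne_zero _ hl0.ne', ?_⟩
    · rw [smul_sub, smul_add, smul_comm σ u, smul_comm σ v, galois_nsmul, hy, hz,
        galois_smul_hact, hx]
    · have h1 : hact p (e 1) x - l • (u • (l ^ b • y) + v • w - z) =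
          u • (n' • w - l • (l ^ b • y)) := by
        have h2 : w = (u * n' + v * l) • w := by rw [huv, one_zsmul]
        have he1 : hact p (e 1) x = w - l • z := eq_sub_of_add_eq hzw.symm
        have h3 : (u * n' + v * l) • w = w := h2.symm
        rw [he1]
        simp only [← natCast_zsmul]
        linear_combination (norm := module) (-1 : ℤ) • h3
      rw [h1, smul_comm, hw, smul_zero]
  -- Nakayama
  let T : Submodule HeckeAlg (JZero p) :=
    { carrier := {x | ∃ N : ℕ, N ≠ 0 ∧ N • x = 0}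
      zero_mem' := ⟨1, one_ne_zero, nsmul_zero _⟩
      add_mem' := fun {a b} ⟨N, hN, hNa⟩ ⟨M, hM, hMb⟩ => ⟨N * M, mul_ne_zero hN hM, by
        rw [nsmul_add, mul_nsmul, hNa, nsmul_zero, mul_nsmul', hMb, nsmul_zero, add_zero]⟩
      smul_mem' := fun c {a} ⟨N, hN, hNa⟩ => ⟨N, hN, by rw [smul_comm, hNa, smul_zero]⟩ }
  let J : Submodule HeckeAlg (JZero p) :=
    { carrier := {x | ∀ σ : GQ, σ • x = x}
      zero_mem' := fun σ => (DistribSMul.toAddMonoidHom (JZero p) σ).map_zero
      add_mem' := fun {a b} ha hb σ => by rw [smul_add, ha, hb]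
      smul_mem' := fun c {a} ha σ => by
        rw [hact_eq_smul, galois_smul_hact, ha] }
  set M := J.map T.mkQ
  have hfg : M.FG := by
    refine Submodule.FG.map _ ?_
    obtain ⟨S, hS⟩ := (MW.fg_invariants_jZero p).out
    refine ⟨S.image Subtype.val, le_antisymm (Submodule.span_le.2 fun y hy => ?_) fun y hy => ?_⟩
    · obtain ⟨s, -, rfl⟩ := Finset.mem_image.1 hy
      exact s.2
    · have : (⟨y, hy⟩ : FixedPoints.addSubgroup GQ (JZero p)) ∈ AddSubgroup.closure (S : Set _) :=
        hS ▸ AddSubgroup.mem_top _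
      have h2 : AddSubgroup.closure (S : Set _) ≤
          ((Submodule.span HeckeAlg ((S.image Subtype.val : Finset _) : Set (JZero p))).toAddSubgroup.comap
            (FixedPoints.addSubgroup GQ (JZero p)).subtype) :=
        (AddSubgroup.closure_le _).2 fun s hs =>
          Submodule.subset_span (Finset.mem_coe.2 (Finset.mem_image_of_mem _ hs))
      exact h2 this
  set I := eisensteinIdeal p ⊔ Ideal.span {(l : HeckeAlg)}
  have hle : M ≤ I • M := by
    rintro _ ⟨x, hx, rfl⟩
    obtain ⟨y, hy, N, hN, hNy⟩ := hdiv x hx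
    have h0 : T.mkQ ((e 1) • x) = T.mkQ ((l : HeckeAlg) • y) := by
      rw [Submodule.mkQ_apply, Submodule.mkQ_apply, Submodule.Quotient.eq]
      exact ⟨N, hN, by rw [Nat.cast_smul_eq_nsmul, hact_eq_smul]; exact hNy⟩
    have h1 : T.mkQ x = (1 - e 1) • T.mkQ x + (l : HeckeAlg) • T.mkQ y := by
      rw [← map_smul, ← map_smul, ← h0, ← map_add, ← add_smul, sub_add_cancel, one_smul]
    rw [h1]
    exact add_mem (Submodule.smul_mem_smul (mem_sup_of_eisEval_eq_zero (by
        rw [map_sub, map_one, heval, sub_self])) (Submodule.mem_map_of_mem hx))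
      (Submodule.smul_mem_smul (Ideal.mem_sup_right (Ideal.mem_span_singleton_self _))
        (Submodule.mem_map_of_mem hy))
  obtain ⟨τ, hτ, hτM⟩ := Submodule.exists_sub_one_mem_and_smul_eq_zero_of_fg_of_le_smul I M hfg hle
  refine ⟨τ, hτ, fun x hx => ?_⟩
  have := hτM _ (Submodule.mem_map_of_mem (f := T.mkQ) (show x ∈ J from hx))
  rw [← map_smul, Submodule.mkQ_apply, Submodule.Quotient.mk_eq_zero] at this
  exact this

end FermatAgent.Mazur.Descent

end
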