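import Fermat.Agent.Mazur.Descent.Assembly.CountAbstract
import Fermat.Agent.Mazur.Descent.Assembly.EisModule
import Fermat.Agent.Mazur.Descent.Assembly.Nakayama
import Fermat.Agent.Mazur.Descent.Pieces
import Fermat.Agent.TW.Tame
import Fermat.Agent.TW.Places

/-!
# The bound on the Kummer classes

The rational points have boundedly many classes in the component, given the admissibility at the
place over `l`.
-/

set_option autoImplicit false

noncomputable section

namespace FermatAgent.Mazur.Descent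

open ModularCurve FermatAgent.GalRep FermatAgent.ModCurveTorsion
open scoped Pointwise

local notation "Qb" => AlgebraicClosure ℚ
local notation "GQ" => AlgebraicClosure ℚ ≃ₐ[ℚ] AlgebraicClosure ℚ

variable {p l : ℕ} [NeZero p]

/-- The classes reducing to zero, inside a level of the component. -/
def eisRedKer (A : ValuationSubring Qb) (e : HeckeAlg) (r : ℕ) : AddSubgroup (eisPart p l e r) :=
  (redKer A p).addSubgroupOf (eisPart p l e r)

theorem mem_eisRedKer {A : ValuationSubring Qb} {e : HeckeAlg} {r : ℕ} {x : eisPart p l e r} :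
    x ∈ eisRedKer A e r ↔ (x : JZero p) ∈ redKer A p := Iff.rfl

/-- Admissibility at `A` of the coboundaries and of the Kummer cocycles of rational points. -/
def LocalAdmissible [Fact l.Prime] {A Ap : ValuationSubring Qb} (D : LocalData p l A Ap) : Prop :=
  (∀ r, Admissible (galFrame Ap A p l) (eisRedKer (p := p) (l := l) A (D.e r) r)) ∧
  ∀ (r : ℕ) (c : GQ → eisPart p l (D.e r) r) (x y : JZero p), (∀ σ : GQ, σ • x = x) →
    l ^ r • y = x → (∀ σ : GQ, (c σ : JZero p) = hact p (D.e r) (σ • y - y)) →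
      (∀ σ ∈ A.inertiaSubgroupIn ℚ, c σ ∈ eisRedKer (p := p) (l := l) A (D.e r) r) ∧
      ∀ φ : eisRedKer (p := p) (l := l) A (D.e r) r →+ AddCircle (1 : ℚ),
        ∀ h : ∀ σ : A.inertiaSubgroupIn ℚ, c σ ∈ eisRedKer (p := p) (l := l) A (D.e r) r,
          (fun σ : A.inertiaSubgroupIn ℚ => φ ⟨c σ, h σ⟩) ∈ (galFrame Ap A p l).UT

variable [hp : Fact p.Prime] [hl : Fact l.Prime] {A Ap : ValuationSubring Qb}

/-- The coboundaries are strict. -/
theorem coboundaryPairs_mem {e : HeckeAlg} {r : ℕ}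
    (hadm : Admissible (galFrame Ap A p l) (eisRedKer (p := p) (l := l) A e r))
    (b : eisPart p l e r) (w : fixedBy' (eisPart p l e r) (galFrame Ap A p l).Ip) :
    coboundaryPairs (galFrame Ap A p l).Ip (b, w) ∈
      strictPairs (galFrame Ap A p l) (eisRedKer (p := p) (l := l) A e r) := by
  obtain ⟨hIl, hUT⟩ := hadm
  obtain ⟨L, hL, hfix⟩ := exists_level_fixing (p := p) fun _ : Unit => (b : JZero p)
  refine (mem_strictPairs _).2 ⟨fun σ τ => ?_, ⟨L.fixingSubgroup, ⟨L, hL, rfl⟩, fun σ hσ => ?_⟩,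
    fun σ hσ => ?_, fun σ hσ => ?_, fun σ hσ => hIl σ hσ b, fun φ h => hUT b φ⟩
  · show (σ * τ) • b - b = σ • b - b + σ • (τ • b - b)
    rw [mul_smul, smul_sub]; abel
  · refine Subtype.ext ?_
    show σ • (b : JZero p) - b = 0
    rw [hfix σ hσ (), sub_self]
  · refine Subtype.ext ?_
    show σ • (b : JZero p) - b = 0
    rw [smul_eq_of_others hσ (r := r) (by rw [nsmul_sub, galois_torsion σ b.2.1, b.2.1, sub_zero]),
      sub_self]
  · show σ • b - b = σ • (b + (w : eisPart p l e r)) - (b + (w : eisPart p l e r))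
    rw [smul_add, w.2 σ hσ]; abel

/-- Differences of Kummer cocycles are strict once trivialised at the place over the level. -/
theorem kummer_diff_strict {D : LocalData p l A Ap} (hD : LocalAdmissible D) {r : ℕ}
    {x y x' y' : JZero p} (hx : ∀ σ : GQ, σ • x = x) (hx' : ∀ σ : GQ, σ • x' = x')
    (hy : l ^ r • y = x) (hy' : l ^ r • y' = x') (c c' : GQ → eisPart p l (D.e r) r)
    (hc : ∀ σ : GQ, (c σ : JZero p) = hact p (D.e r) (σ • y - y))
    (hc' : ∀ σ : GQ, (c' σ : JZero p) = hact p (D.e r) (σ • y' - y'))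
    (b : eisPart p l (D.e r) r) (hb : ∀ σ ∈ (galFrame Ap A p l).Ip, c σ - c' σ = σ • b - b) :
    ((fun σ => c σ - c' σ, b) : (GQ → eisPart p l (D.e r) r) × eisPart p l (D.e r) r) ∈
      strictPairs (galFrame Ap A p l) (eisRedKer (p := p) (l := l) A (D.e r) r) := by
  obtain ⟨L, hL, hfix⟩ := exists_level_fixing (p := p) fun i : Bool => cond i y y'
  obtain ⟨hIl, hUT⟩ := hD.2 r (fun σ => c σ - c' σ) (x - x') (y - y')
    (fun σ => by rw [smul_sub, hx, hx']) (by rw [nsmul_sub, hy, hy']) fun σ => by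
      rw [AddSubgroupClass.coe_sub, hc, hc', ← map_sub, smul_sub]
      congr 1
      abel
  have hzero : ∀ σ : GQ, σ • y = y → σ • y' = y' → c σ - c' σ = 0 := fun σ h h' => by
    refine Subtype.ext ?_
    rw [AddSubgroupClass.coe_sub, hc, hc', h, h', sub_self, map_zero, sub_self, map_zero,
      sub_self]
    rfl
  refine (mem_strictPairs _).2 ⟨fun σ τ => ?_, ⟨L.fixingSubgroup, ⟨L, hL, rfl⟩, fun σ hσ => ?_⟩,
    fun σ hσ => ?_, hb, hIl, hUT⟩
  · refine Subtype.ext ?_
    show (c (σ * τ) : JZero p) - c' (σ * τ) =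
      ((c σ : JZero p) - c' σ) + σ • ((c τ : JZero p) - c' τ)
    rw [hc, hc', hc, hc', hc, hc', ← map_sub, ← map_sub, ← map_sub, galois_smul_hact, ← map_add]
    congr 1
    simp only [mul_smul, smul_sub]
    abel
  · exact hzero σ (hfix σ hσ true) (hfix σ hσ false)
  · exact hzero σ
      (smul_eq_of_others hσ (r := r) (by rw [nsmul_sub, ← galois_nsmul, hy, hx, sub_self]))
      (smul_eq_of_others hσ (r := r) (by rw [nsmul_sub, ← galois_nsmul, hy', hx', sub_self]))

/-- Inertia at the level acts on the module and on a family of cocycles through one element. -/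
theorem exists_inertia_generator (hlp : l ≠ p) (hAp : Ap.LiesOverPrime p) (D : LocalData p l A Ap)
    (r : ℕ) {ι : Type} [Finite ι] (y : ι → JZero p) (c : ι → GQ → eisPart p l (D.e r) r)
    (hc : ∀ i σ τ, c i (σ * τ) = c i σ + σ • c i τ)
    (hcy : ∀ i (σ : GQ), σ • y i = y i → c i σ = 0) :
    ∃ t ∈ Ap.inertiaSubgroupIn ℚ, (∀ σ ∈ Ap.inertiaSubgroupIn ℚ, ∃ j : ℤ, ∀ i,
      c i σ = c i (t ^ j) ∧ ∀ b : eisPart p l (D.e r) r, σ • b = t ^ j • b) ∧
      ∀ i, c i (D.frobP * D.frobP * t * (D.frobP * D.frobP)⁻¹) = c i (t ^ (p * p)) := by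
  classical
  have := finite_eisPart (p := p) (l := l) (D.e r) r
  obtain ⟨L, hL, hfix⟩ := exists_level_fixing (p := p)
    (Sum.elim (fun g : eisPart p l (D.e r) r => (g : JZero p)) y)
  let Lf := IntermediateField.normalClosure ℚ L Qb
  have := RT.isGalois_algClosureRat
  have : Normal ℚ Lf := normalClosure.normal ℚ L Qb
  have : FiniteDimensional ℚ Lf := normalClosure.is_finiteDimensional ℚ L Qb
  let f : Ap.inertiaSubgroupIn ℚ →* Equiv.Perm (ι → eisPart p l (D.e r) r) :=
    (affineHom c hc).comp (Ap.inertiaSubgroupIn ℚ).subtype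
  have hfL : ∀ σ : Ap.inertiaSubgroupIn ℚ, (∀ a ∈ Lf, (σ : GQ) a = a) → f σ = 1 := by
    intro σ hσ
    have hmem : (σ : GQ) ∈ L.fixingSubgroup := (IntermediateField.mem_fixingSubgroup_iff L _).2
      fun a ha => hσ a (IntermediateField.le_normalClosure L ha)
    refine Equiv.ext fun b => funext fun i => ?_
    show (σ : GQ) • b i + c i (σ : GQ) = b i
    rw [hcy i _ (hfix _ hmem (Sum.inr i)), add_zero]
    exact Subtype.ext (hfix _ hmem (Sum.inl (b i)))
  have hord : ∀ σ : Ap.inertiaSubgroupIn ℚ, ∃ n, f σ ^ l ^ n = 1 := by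
    intro σ
    refine ⟨r + r, ?_⟩
    have hs : ∀ b : eisPart p l (D.e r) r, (σ : GQ) ^ l ^ r • b = b := fun b => by
      rw [pow_smul_of_unipotent
        (Subtype.ext (D.inertia_Gt r _ σ.2 _ (D.inertia_sub r _ σ.2 _ b.2))),
        nsmul_eisPart, add_zero]
    rw [pow_add, pow_mul, ← map_pow, ← map_pow]
    refine Equiv.ext fun b => funext fun i => ?_
    show (((σ : GQ) ^ l ^ r) ^ l ^ r) • b i + c i (((σ : GQ) ^ l ^ r) ^ l ^ r) = b i
    rw [cocycle_pow_of_fix (hc i) hs, nsmul_eisPart, add_zero]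
    exact (MulAction.stabilizer GQ (b i)).pow_mem (hs (b i)) _
  obtain ⟨⟨τ, hτ⟩, hconj⟩ := TW.tame_inertia (ℓ := p) (p := l) hp.out hl.out hlp hAp Lf f hfL hord
  have heval : ∀ {σ σ' : Ap.inertiaSubgroupIn ℚ}, f σ = f σ' → ∀ i,
      c i (σ : GQ) = c i (σ' : GQ) ∧
        ∀ b : eisPart p l (D.e r) r, (σ : GQ) • b = (σ' : GQ) • b := by
    intro σ σ' h i
    have key : ∀ b : eisPart p l (D.e r) r,
        (σ : GQ) • b + c i (σ : GQ) = (σ' : GQ) • b + c i (σ' : GQ) := fun b =>
      congrFun (Equiv.ext_iff.1 h fun _ => b) i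
    have h0 := key 0
    rw [smul_zero, smul_zero, zero_add, zero_add] at h0
    exact ⟨h0, fun b => by have := key b; rwa [h0, add_left_inj] at this⟩
  refine ⟨τ, τ.2, fun σ hσ => ?_, fun i => ?_⟩
  · obtain ⟨j, hj⟩ := Subgroup.mem_zpowers_iff.1 (hτ ⟨σ, hσ⟩)
    rw [← map_zpow] at hj
    exact ⟨j, fun i => heval hj.symm i⟩
  · have hmem : ∀ s : GQ, s ∈ Ap.inertiaSubgroupIn ℚ →
        D.frobP * s * D.frobP⁻¹ ∈ Ap.inertiaSubgroupIn ℚ := fun s hs => by
      have := TW.conj_mem_inertia (g := D.frobP) hs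
      rwa [show D.frobP • Ap = Ap from D.isFrobP.mem_decompositionSubgroup] at this
    set τ₁ : Ap.inertiaSubgroupIn ℚ := ⟨_, hmem _ τ.2⟩
    set τ₂ : Ap.inertiaSubgroupIn ℚ := ⟨_, hmem _ τ₁.2⟩
    have h2 : f τ₂ = f (τ ^ (p * p)) := by
      rw [hconj D.frobP D.isFrobP τ₁ τ₂ rfl, hconj D.frobP D.isFrobP τ τ₁ rfl, map_pow, ← pow_mul]
    rw [show D.frobP * D.frobP * (τ : GQ) * (D.frobP * D.frobP)⁻¹ = (τ₂ : GQ) by
      show _ = D.frobP * (D.frobP * (τ : GQ) * D.frobP⁻¹) * D.frobP⁻¹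
      group]
    exact (heval h2 i).1

/-- **The Kummer classes are boundedly many.** -/
theorem kummerBound_of_admissible (hlp : l ≠ p) (hA : A.LiesOverPrime l) (hAp : Ap.LiesOverPrime p)
    (D : LocalData p l A Ap) (hD : LocalAdmissible D) : KummerBound p l D.e := by
  classical
  obtain ⟨c₀, hc₀, hfixle⟩ := exists_card_fixed_le D
  have hp2 : 0 < p ^ 2 - 1 := by
    have := Nat.one_lt_pow two_ne_zero hp.out.one_lt
    omega
  have hKfin : Finite {R : JZero p | ((p ^ 2 - 1 : ℕ) : ℤ) • R = 0} :=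
    ((torsionModel p).torsion_finite hp2).to_subtype
  refine ⟨c₀ * (Nat.card {R : JZero p | ((p ^ 2 - 1 : ℕ) : ℤ) • R = 0} * c₀),
    fun r k x hx hdist => ?_⟩
  rcases Nat.eq_zero_or_pos k with rfl | hk
  · exact Nat.zero_le _
  have : Nonempty (Fin k) := ⟨⟨0, hk⟩⟩
  have : Finite (eisPart p l (D.e r) r) := finite_eisPart (D.e r) r
  obtain ⟨hPfin, hPle⟩ := card_strictPairs_le (galFrame Ap A p l) (cycloChar l)
    (pieces_galFrame hp.out hlp.symm hA hAp) (eisPart p l (D.e r) r) (isEisLike_eisPart D r)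
    (eisRedKer (p := p) (l := l) A (D.e r) r) (hD.1 r)
  choose y hy using fun i => MW.exists_nsmul_eq_jZero (torsionModel p) (pow_pos hl.out.pos r) (x i)
  have hk0 : ∀ i (σ : GQ), l ^ r • (σ • y i - y i) = 0 := fun i σ => by
    rw [nsmul_sub, ← galois_nsmul, hy, hx, sub_self]
  let c : Fin k → GQ → eisPart p l (D.e r) r := fun i σ =>
    ⟨hact p (D.e r) (σ • y i - y i), by rw [← map_nsmul, hk0, map_zero],
      D.e_idem r _ (hk0 i σ)⟩
  have hc : ∀ i σ τ, c i (σ * τ) = c i σ + σ • c i τ := fun i σ τ => Subtype.ext (by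
    show hact p (D.e r) ((σ * τ) • y i - y i) =
      hact p (D.e r) (σ • y i - y i) + σ • hact p (D.e r) (τ • y i - y i)
    rw [galois_smul_hact, ← map_add, smul_sub, mul_smul]
    congr 1
    abel)
  obtain ⟨t, ht, hgen, hconj⟩ := exists_inertia_generator hlp hAp D r y c hc fun i σ h =>
    Subtype.ext (by show hact p (D.e r) (σ • y i - y i) = 0; rw [h, sub_self, map_zero])
  have hsub : ∀ σ ∈ (galFrame Ap A p l).Ip, ∀ b : eisPart p l (D.e r) r,
      σ • b - b ∈ (D.Gt r).addSubgroupOf (eisPart p l (D.e r) r) :=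
    fun σ hσ b => D.inertia_sub r σ hσ _ b.2
  have h := card_le_of_strict (F := galFrame Ap A p l)
    (B₀ := eisRedKer (p := p) (l := l) A (D.e r) r)
    (W := (D.Gt r).addSubgroupOf (eisPart p l (D.e r) r)) (w := l ^ (D.m * r)) (c₀ := c₀)
    (K := Nat.card {R : JZero p | ((p ^ 2 - 1 : ℕ) : ℤ) • R = 0}) (M := p ^ 2 - 1)
    (pow_pos hl.out.pos _) hPle ?_ ?_ ?_ ?_ hsub ?_ ?_ (coboundaryPairs_mem (hD.1 r)) c hc ht hgen
    ?_ (fun i j b hb => kummer_diff_strict hD (hx i) (hx j) (hy i) (hy j) (c i) (c j)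
      (fun σ => rfl) (fun σ => rfl) b hb) ?_
  · rwa [Fintype.card_fin] at h
  · rw [D.card_G r, ← pow_add]
    ring_nf
  · refine le_trans (le_of_eq ?_) (D.card_G0 r)
    exact Nat.card_congr
      { toFun := fun z => ⟨(z.1 : JZero p), z.1.2, z.2⟩
        invFun := fun z => ⟨⟨z.1, z.2.1⟩, z.2.2⟩
        left_inv := fun z => rfl
        right_inv := fun z => rfl }
  · rw [Nat.card_congr (AddSubgroup.addSubgroupOfEquivOfLe (D.Gt_le r)).toEquiv, D.card_Gt]
  · exact fun b hb σ hσ => Subtype.ext (D.inertia_Gt r σ hσ _ hb)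
  · exact hfixle r _ fun b hb σ => hb σ trivial
  · refine Nat.card_le_card_of_injective
      (fun z : (DistribSMul.toAddMonoidHom (eisPart p l (D.e r) r) (p ^ 2 - 1)).ker =>
      (⟨((z : eisPart p l (D.e r) r) : JZero p), ?_⟩ :
        {R : JZero p | ((p ^ 2 - 1 : ℕ) : ℤ) • R = 0}))
      fun z z' h' => Subtype.ext (Subtype.ext
        (congrArg (fun w : {R : JZero p | ((p ^ 2 - 1 : ℕ) : ℤ) • R = 0} => w.1) h'))
    show ((p ^ 2 - 1 : ℕ) : ℤ) • _ = 0
    rw [natCast_zsmul]
    exact congrArg Subtype.val z.2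
  · intro i
    rw [sq]
    refine nsmul_cocycle_mem (hc i) (Nat.one_le_iff_ne_zero.2
      (Nat.mul_ne_zero hp.out.ne_zero hp.out.ne_zero)) (hsub t ht) ?_ (fun b => ?_) (hconj i)
    · refine hsub _ ?_
      have hd : (D.frobP * D.frobP) • Ap = Ap := by
        rw [mul_smul, show D.frobP • Ap = Ap from D.isFrobP.mem_decompositionSubgroup,
          show D.frobP • Ap = Ap from D.isFrobP.mem_decompositionSubgroup]
      have := TW.conj_mem_inertia (g := D.frobP * D.frobP) ht
      rwa [hd] at this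
    · show (D.frobP * D.frobP) • (b : JZero p) - (b : JZero p) ∈ D.Gt r
      rw [mul_smul]
      exact D.frobP_G r _ b.2
  · intro i j hne b
    by_contra! hall
    refine hdist i j hne (hact p (D.e r) (y i - y j) - b) (fun σ => ?_) ?_
    · have h' : hact p (D.e r) (σ • y i - y i) - hact p (D.e r) (σ • y j - y j) =
          σ • (b : JZero p) - b := congrArg Subtype.val (hall σ)
      rw [smul_sub, galois_smul_hact, smul_sub]
      rw [← map_sub, eq_sub_iff_add_eq] at h'
      rw [← h']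
      simp only [map_sub]
      abel
    · rw [nsmul_sub, ← map_nsmul, nsmul_sub, hy, hy, b.2.1, sub_zero]

end FermatAgent.Mazur.Descent

end
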