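import Fermat.Agent.Mazur.Descent.Counting

/-!
# Counting classes of strict cocycles

In a module with half of it fixed by `Ip` and a bound on the strict pairs, cocycles that are
pairwise inequivalent are boundedly many.
-/

set_option autoImplicit false

namespace FermatAgent.Mazur.Descent

/-- Elements of `P` pairwise incongruent modulo `R` are few. -/
theorem card_mul_le_of_separated {B : Type*} [AddCommGroup B] {P R : AddSubgroup B} (hRP : R ≤ P)
    [Finite P] (S : Finset P) (hS : ∀ u ∈ S, ∀ v ∈ S, u ≠ v → (u : B) - v ∉ R) :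
    S.card * Nat.card R ≤ Nat.card P := by
  classical
  set R' := R.addSubgroupOf P
  have h1 : S.card ≤ Nat.card (P ⧸ R') := by
    rw [← Nat.card_eq_finsetCard]
    refine Nat.card_le_card_of_injective (fun u : S => QuotientAddGroup.mk' R' u.1) fun u v h => ?_
    by_contra hne
    refine hS u.1 u.2 v.1 v.2 (fun h' => hne (Subtype.ext h')) ?_
    exact (QuotientAddGroup.eq_iff_sub_mem (N := R')).1 h
  rw [AddSubgroup.card_eq_card_quotient_mul_card_addSubgroup R',
    ← Nat.card_congr (AddSubgroup.addSubgroupOfEquivOfLe hRP).toEquiv]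
  exact Nat.mul_le_mul h1 le_rfl

variable {Γ : Type*} [Group Γ] {B : Type*} [AddCommGroup B] [DistribMulAction Γ B]

/-- The elements fixed by a subgroup. -/
def fixedBy' (B : Type*) [AddCommGroup B] [DistribMulAction Γ B] (H : Subgroup Γ) : AddSubgroup B where
  carrier := {x | ∀ σ ∈ H, σ • x = x}
  zero_mem' σ _ := smul_zero σ
  add_mem' {x y} hx hy σ hσ := by rw [smul_add, hx σ hσ, hy σ hσ]
  neg_mem' {x} hx σ hσ := by rw [smul_neg, hx σ hσ]

/-- Coboundaries with their trivialisations. -/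
def coboundaryPairs (H : Subgroup Γ) : (B × fixedBy' B H) →+ (Γ → B) × B :=
  AddMonoidHom.mk' (fun bw => (fun σ => σ • bw.1 - bw.1, bw.1 + (bw.2 : B)))
    fun x y => by
      refine Prod.ext (funext fun σ => ?_) ?_
      · show σ • (x.1 + y.1) - (x.1 + y.1) = (σ • x.1 - x.1) + (σ • y.1 - y.1)
        rw [smul_add]; abel
      · show x.1 + y.1 + ((x.2 + y.2 : fixedBy' B H) : B) = x.1 + (x.2 : B) + (y.1 + y.2)
        rw [AddSubgroup.coe_add]; abel

/-- The difference with a coboundary vanishes on a subgroup. -/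
def coboundaryLocus {d : Γ → B} (hd : ∀ σ τ, d (σ * τ) = d σ + σ • d τ) (b : B) : Subgroup Γ where
  carrier := {s | d s = s • b - b}
  one_mem' := by
    show d 1 = (1 : Γ) • b - b
    rw [one_smul, sub_self]
    simpa using hd 1 1
  mul_mem' {s t} hs ht := by
    show d (s * t) = (s * t) • b - b
    rw [hd, hs, ht, mul_smul, smul_sub]; abel
  inv_mem' {s} hs := by
    show d s⁻¹ = s⁻¹ • b - b
    have h1 : d 1 = 0 := by simpa using hd 1 1
    have h := hd s⁻¹ s
    rw [inv_mul_cancel, h1, hs, smul_sub, inv_smul_smul] at h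
    rw [eq_neg_of_add_eq_zero_left h.symm, neg_sub]

/-- The affine action of a family of cocycles. -/
def affineHom {ι : Type*} (c : ι → Γ → B) (hc : ∀ i σ τ, c i (σ * τ) = c i σ + σ • c i τ) :
    Γ →* Equiv.Perm (ι → B) :=
  MonoidHom.mk' (fun σ =>
    { toFun := fun b i => σ • b i + c i σ
      invFun := fun b i => σ⁻¹ • b i + c i σ⁻¹
      left_inv := fun b => funext fun i => by
        have h1 : c i 1 = 0 := by simpa using hc i 1 1
        have h2 := hc i σ⁻¹ σ
        rw [inv_mul_cancel, h1] at h2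
        show σ⁻¹ • (σ • b i + c i σ) + c i σ⁻¹ = b i
        rw [smul_add, inv_smul_smul, add_assoc, add_comm (σ⁻¹ • c i σ), ← h2, add_zero]
      right_inv := fun b => funext fun i => by
        have h1 : c i 1 = 0 := by simpa using hc i 1 1
        have h2 := hc i σ σ⁻¹
        rw [mul_inv_cancel, h1] at h2
        show σ • (σ⁻¹ • b i + c i σ⁻¹) + c i σ = b i
        rw [smul_add, smul_inv_smul, add_assoc, add_comm (σ • c i σ⁻¹), ← h2, add_zero] })
    fun σ τ => Equiv.ext fun b => funext fun i => by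
      show (σ * τ) • b i + c i (σ * τ) = σ • (τ • b i + c i τ) + c i σ
      rw [hc, mul_smul, smul_add]; abel

theorem cocycle_pow_of_fix {c : Γ → B} (hc : ∀ σ τ, c (σ * τ) = c σ + σ • c τ) {s : Γ}
    (hs : ∀ b : B, s • b = b) : ∀ n : ℕ, c (s ^ n) = n • c s
  | 0 => by
    rw [pow_zero, zero_nsmul]
    simpa using hc 1 1
  | n + 1 => by rw [pow_succ', hc, hs, cocycle_pow_of_fix hc hs n, succ_nsmul', add_comm]

theorem pow_smul_of_unipotent {s : Γ} {b : B} (h : s • (s • b - b) = s • b - b) :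
    ∀ n : ℕ, s ^ n • b = b + n • (s • b - b)
  | 0 => by rw [pow_zero, one_smul, zero_nsmul, add_zero]
  | n + 1 => by
    rw [pow_succ', mul_smul, pow_smul_of_unipotent h n, smul_add, smul_comm s n, h, succ_nsmul']
    abel

/-- The value at a conjugate by an element acting trivially modulo `W`. -/
theorem nsmul_cocycle_mem {c : Γ → B} (hc : ∀ σ τ, c (σ * τ) = c σ + σ • c τ) {W : AddSubgroup B}
    {t Φ : Γ} {N : ℕ} (hN : 1 ≤ N) (ht : ∀ b : B, t • b - b ∈ W)
    (ht₂ : ∀ b : B, (Φ * t * Φ⁻¹) • b - b ∈ W) (hΦ : ∀ b : B, Φ • b - b ∈ W)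
    (he : c (Φ * t * Φ⁻¹) = c (t ^ N)) : (N - 1) • c t ∈ W := by
  have h1 : c 1 = 0 := by simpa using hc 1 1
  have hpow : ∀ n : ℕ, c (t ^ n) - n • c t ∈ W := by
    intro n
    induction n with
    | zero => rw [pow_zero, h1, zero_nsmul, sub_zero]; exact zero_mem _
    | succ n ih =>
      rw [pow_succ', hc, succ_nsmul']
      have := add_mem (ht (c (t ^ n))) ih
      convert this using 1
      abel
  have h5 : Φ • c Φ⁻¹ = - c Φ := by
    have := hc Φ Φ⁻¹
    rw [mul_inv_cancel, h1] at this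
    exact eq_neg_of_add_eq_zero_right this.symm
  have h4 : c (Φ * t * Φ⁻¹) - c t ∈ W := by
    have := add_mem (hΦ (c t)) (ht₂ (Φ • c Φ⁻¹))
    rw [smul_smul, mul_assoc _ Φ⁻¹ Φ, inv_mul_cancel, mul_one, h5] at this
    rw [hc, hc]
    convert this using 1
    abel
  rw [he] at h4
  have h6 := sub_mem h4 (hpow N)
  rw [sub_nsmul _ hN, one_nsmul]
  convert h6 using 1
  abel

/-- **Inequivalent cocycles are few.** -/
theorem card_le_of_strict {F : Frame Γ} [Finite B] {B₀ W : AddSubgroup B} {w c₀ K M : ℕ}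
    (hw : 0 < w) [Finite (strictPairs F B₀)]
    (hP : Nat.card (strictPairs F B₀) ≤ Nat.card B * Nat.card B₀)
    (hB : Nat.card B = w * w) (hB₀ : Nat.card B₀ ≤ w) (hW : Nat.card W = w)
    (hWfix : ∀ b ∈ W, ∀ σ ∈ F.Ip, σ • b = b) (hsub : ∀ σ ∈ F.Ip, ∀ b : B, σ • b - b ∈ W)
    (hfix : Nat.card (fixedBy' B (⊤ : Subgroup Γ)) ≤ c₀)
    (hK : Nat.card (DistribSMul.toAddMonoidHom B M).ker ≤ K)
    (hbd : ∀ b : B, ∀ w' : fixedBy' B F.Ip, coboundaryPairs F.Ip (b, w') ∈ strictPairs F B₀)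
    {ι : Type*} [Fintype ι] [Nonempty ι] (c : ι → Γ → B)
    (hc : ∀ i σ τ, c i (σ * τ) = c i σ + σ • c i τ) {t : Γ} (ht : t ∈ F.Ip)
    (hgen : ∀ σ ∈ F.Ip, ∃ j : ℤ, ∀ i, c i σ = c i (t ^ j) ∧ ∀ b : B, σ • b = t ^ j • b)
    (hobs : ∀ i, M • c i t ∈ W)
    (hstrict : ∀ i j b, (∀ σ ∈ F.Ip, c i σ - c j σ = σ • b - b) →
      ((fun σ => c i σ - c j σ, b) : (Γ → B) × B) ∈ strictPairs F B₀)
    (hdist : ∀ i j, i ≠ j → ∀ b : B, ∃ σ, c i σ - c j σ ≠ σ • b - b) :
    Fintype.card ι ≤ c₀ * (K * c₀) := by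
  classical
  set fp := fixedBy' B F.Ip
  set Ψ := coboundaryPairs (B := B) F.Ip
  have hΨ : Ψ.range ≤ strictPairs F B₀ := by
    rintro _ ⟨⟨b, w'⟩, rfl⟩
    exact hbd b w'
  have hΨker : Nat.card Ψ.ker ≤ c₀ := by
    refine le_trans (Nat.card_le_card_of_injective (fun z : Ψ.ker =>
      (⟨z.1.1, fun σ _ => sub_eq_zero.1 (congrFun (congrArg Prod.fst z.2) σ)⟩ :
        fixedBy' B (⊤ : Subgroup Γ))) fun z z' h => ?_) hfix
    have h1 : z.1.1 = z'.1.1 := congrArg Subtype.val h
    have e1 : z.1.1 + (z.1.2 : B) = 0 := congrArg Prod.snd z.2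
    have e2 : z'.1.1 + (z'.1.2 : B) = 0 := congrArg Prod.snd z'.2
    refine Subtype.ext (Prod.ext h1 (Subtype.ext ?_))
    rw [h1] at e1
    exact add_left_cancel (e1.trans e2.symm)
  have hrange : Nat.card B * Nat.card fp ≤ Nat.card Ψ.range * c₀ := by
    rw [← Nat.card_prod, AddSubgroup.card_eq_card_quotient_mul_card_addSubgroup Ψ.ker,
      Nat.card_congr (QuotientAddGroup.quotientKerEquivRange Ψ).toEquiv]
    exact Nat.mul_le_mul le_rfl hΨker
  have hPw : Nat.card (strictPairs F B₀) ≤ Nat.card B * w := hP.trans (Nat.mul_le_mul le_rfl hB₀)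
  have hfp_ge : w ≤ Nat.card fp :=
    hW ▸ AddSubgroup.card_le_of_le (fun b hb σ hσ => hWfix b hb σ hσ : W ≤ fp)
  have hfp_le : Nat.card fp ≤ w * c₀ := by
    refine Nat.le_of_mul_le_mul_left (hrange.trans ?_) (Nat.card_pos : 0 < Nat.card B)
    exact (Nat.mul_le_mul ((AddSubgroup.card_le_of_le hΨ).trans hPw) le_rfl).trans
      (le_of_eq (mul_assoc _ _ _))
  have hindex : ∀ S : Finset (strictPairs F B₀),
      (∀ u ∈ S, ∀ v ∈ S, u ≠ v → (u.1 - v.1) ∉ Ψ.range) → S.card ≤ c₀ := by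
    intro S hS
    have h1 := card_mul_le_of_separated hΨ S hS
    refine Nat.le_of_mul_le_mul_left ?_ (show 0 < Nat.card B * w from Nat.mul_pos Nat.card_pos hw)
    calc Nat.card B * w * S.card ≤ Nat.card Ψ.range * c₀ * S.card :=
          Nat.mul_le_mul ((Nat.mul_le_mul le_rfl hfp_ge).trans hrange) le_rfl
      _ = S.card * Nat.card Ψ.range * c₀ := by ring
      _ ≤ Nat.card B * w * c₀ := Nat.mul_le_mul (h1.trans hPw) le_rfl
  -- the obstruction at `Ip`
  set H := W.comap (DistribSMul.toAddMonoidHom B M)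
  let dt : B →+ B := AddMonoidHom.mk' (fun b => t • b - b) fun a b => by rw [smul_add]; abel
  have hdt : dt.range ≤ H := by
    rintro _ ⟨b, rfl⟩
    exact nsmul_mem (hsub t ht b) M
  have hdtker : Nat.card dt.ker ≤ w * c₀ := by
    refine (AddSubgroup.card_le_of_le (fun z hz σ hσ => ?_ : dt.ker ≤ fp)).trans hfp_le
    obtain ⟨j, hj⟩ := hgen σ hσ
    rw [(hj (Classical.arbitrary ι)).2]
    exact Subgroup.zpow_mem (MulAction.stabilizer Γ z) (sub_eq_zero.1 hz : t • z = z) j
  have hcardH : Nat.card H ≤ K * w := by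
    let g : H →+ W := AddMonoidHom.mk' (fun x => ⟨M • (x : B), x.2⟩) fun x y =>
      Subtype.ext (nsmul_add (x : B) y M)
    rw [AddSubgroup.card_eq_card_quotient_mul_card_addSubgroup g.ker, mul_comm]
    refine Nat.mul_le_mul ?_ ((Nat.card_le_card_of_injective _
      (QuotientAddGroup.kerLift_injective g)).trans hW.le)
    refine le_trans (Nat.card_le_card_of_injective (fun x : g.ker =>
      (⟨(x.1 : B), congrArg Subtype.val x.2⟩ : (DistribSMul.toAddMonoidHom B M).ker))
      fun x y h => ?_) hK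
    exact Subtype.ext (Subtype.ext (congrArg (fun z => z.1) h))
  let q : ι → H ⧸ dt.range.addSubgroupOf H := fun i =>
    QuotientAddGroup.mk' _ ⟨c i t, hobs i⟩
  have hquot : (Finset.univ.image q).card ≤ K * c₀ := by
    have h1 : (Finset.univ.image q).card ≤ Nat.card (H ⧸ dt.range.addSubgroupOf H) := by
      rw [← Nat.card_eq_finsetCard]
      exact Nat.card_le_card_of_injective Subtype.val Subtype.val_injective
    have hBle : Nat.card B ≤ Nat.card dt.range * (w * c₀) := by
      rw [AddSubgroup.card_eq_card_quotient_mul_card_addSubgroup dt.ker,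
        Nat.card_congr (QuotientAddGroup.quotientKerEquivRange dt).toEquiv]
      exact Nat.mul_le_mul le_rfl hdtker
    have h2 : Nat.card H = Nat.card (H ⧸ dt.range.addSubgroupOf H) * Nat.card dt.range := by
      rw [← Nat.card_congr (AddSubgroup.addSubgroupOfEquivOfLe hdt).toEquiv]
      exact AddSubgroup.card_eq_card_quotient_mul_card_addSubgroup _
    refine Nat.le_of_mul_le_mul_left ?_ (show 0 < w * w from Nat.mul_pos hw hw)
    calc w * w * (Finset.univ.image q).card
        ≤ Nat.card dt.range * (w * c₀) * Nat.card (H ⧸ dt.range.addSubgroupOf H) :=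
          Nat.mul_le_mul (hB ▸ hBle) h1
      _ = Nat.card H * (w * c₀) := by rw [h2]; ring
      _ ≤ K * w * (w * c₀) := Nat.mul_le_mul hcardH le_rfl
      _ = w * w * (K * c₀) := by ring
  have hfib : ∀ z ∈ Finset.univ.image q, (Finset.univ.filter fun i => q i = z).card ≤ c₀ := by
    intro z hz
    obtain ⟨i₀, -, rfl⟩ := Finset.mem_image.1 hz
    set T := Finset.univ.filter fun i => q i = q i₀
    have hb : ∀ i ∈ T, ∃ b : B, t • b - b = c i t - c i₀ t := fun i hi =>
      (QuotientAddGroup.eq_iff_sub_mem (N := dt.range.addSubgroupOf H)).1 (Finset.mem_filter.1 hi).2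
    choose b hb using hb
    have hpair : ∀ i (hi : i ∈ T),
        ((fun σ => c i σ - c i₀ σ, b i hi) : (Γ → B) × B) ∈ strictPairs F B₀ := fun i hi => by
      refine hstrict i i₀ _ fun σ hσ => ?_
      have hd : ∀ σ τ : Γ, (c i (σ * τ) - c i₀ (σ * τ)) =
          (c i σ - c i₀ σ) + σ • (c i τ - c i₀ τ) := fun σ τ => by
        rw [hc, hc, smul_sub]; abel
      obtain ⟨j, hj⟩ := hgen σ hσ
      rw [(hj i).1, (hj i₀).1, (hj i).2]
      exact (coboundaryLocus (d := fun σ => c i σ - c i₀ σ) hd (b i hi)).zpow_mem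
        (hb i hi).symm j
    let u : T → strictPairs F B₀ := fun i => ⟨_, hpair i.1 i.2⟩
    have hu : ∀ i j : T, (i : ι) ≠ j → (u i).1 - (u j).1 ∉ Ψ.range := by
      rintro ⟨i, hi⟩ ⟨j, hj⟩ hne ⟨⟨g, w'⟩, hgw⟩
      obtain ⟨σ, hσ⟩ := hdist i j hne g
      refine hσ ?_
      have h : σ • g - g = (c i σ - c i₀ σ) - (c j σ - c i₀ σ) :=
        congrFun (congrArg Prod.fst hgw) σ
      rw [h, sub_sub_sub_cancel_right]
    have hinj : Function.Injective u := fun i j h => Subtype.ext <| by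
      by_contra hne
      exact hu i j hne (by rw [h, sub_self]; exact zero_mem _)
    have h := hindex (Finset.univ.image u) fun a ha b hb hab => by
      obtain ⟨i, -, rfl⟩ := Finset.mem_image.1 ha
      obtain ⟨j, -, rfl⟩ := Finset.mem_image.1 hb
      exact hu i j fun hij => hab (congrArg u (Subtype.ext hij))
    rwa [Finset.card_image_of_injective _ hinj, Finset.card_univ, Fintype.card_coe] at h
  have hcount := Finset.card_le_mul_card_image (f := q) Finset.univ c₀ hfib
  rw [Finset.card_univ] at hcount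
  exact hcount.trans (Nat.mul_le_mul le_rfl hquot)

end FermatAgent.Mazur.Descent
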